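import Fermat.Statements.S09

set_option autoImplicit false
open WeierstrassCurve WeierstrassCurve.Affine WeierstrassCurve.Affine.Point
open FreyPackage

namespace Fermat.Agent.S09

/-- Glue: Mazur irreducibility for the Frey curve follows from the four cofixed-line statements
(the statements S13, S10, S11, S12 passed as hypotheses). -/
theorem glue_of_cofixed (P : FreyPackage)
    (h13 : ¬ GaloisRepIsIrreducible (K := AlgebraicClosure ℚ) ℚ P.freyCurve P.p →
      HasGaloisStableCofixedLine (K := AlgebraicClosure ℚ) ℚ P.freyCurve P.p)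
    (h10 : (P.p = 5 ∨ P.p = 7 ∨ P.p = 13) →
      ¬ HasGaloisStableCofixedLine (K := AlgebraicClosure ℚ) ℚ P.freyCurve P.p)
    (h11 : P.p = 11 →
      ¬ HasGaloisStableCofixedLine (K := AlgebraicClosure ℚ) ℚ P.freyCurve P.p)
    (h12 : 17 ≤ P.p →
      ¬ HasGaloisStableCofixedLine (K := AlgebraicClosure ℚ) ℚ P.freyCurve P.p) :
    GaloisRepIsIrreducible (K := AlgebraicClosure ℚ) ℚ P.freyCurve P.p := by
  by_contra hred
  have hcof := h13 hred
  have hp5 := P.hp5
  have hpp := P.pp
  by_cases h17 : 17 ≤ P.p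
  · exact h12 h17 hcof
  · have hlt : P.p < 17 := by omega
    have hcases : P.p = 5 ∨ P.p = 7 ∨ P.p = 11 ∨ P.p = 13 := by
      have : ∀ n : ℕ, 5 ≤ n → n < 17 → n.Prime → n = 5 ∨ n = 7 ∨ n = 11 ∨ n = 13 := by
        intro n h5 h17 hn
        interval_cases n <;> first | omega | (exfalso; revert hn; decide)
      exact this P.p hp5 hlt hpp
    rcases hcases with h | h | h | h
    · exact h10 (Or.inl h) hcof
    · exact h10 (Or.inr (Or.inl h)) hcof
    · exact h11 h hcof
    · exact h10 (Or.inr (Or.inr h)) hcof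

end Fermat.Agent.S09
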